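/-
S25 package TWIST, leaf file G1 — ALL FIVE LEAVES (G1a, G1a', G1b, G1b', G1c), helper3108.

Exact names and statements of `TWIST/G1.lean` (captain helper9130), in namespace
`Fermat.Agent.S25.TWIST.G1.H3108`:

* `Γ₁_isLineBundle`, `Γ₂_isLineBundle`  (G1a, G1a');
* `isBC_Γ₁`, `isBC_Γ₂`                  (G1b, G1b');
* `Γ_overlap`                           (G1c).

Proof: the captain's `ofIdeals` glued module is isomorphic (identity maps) to the glued module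
of my ideal datum (`G1/H3108/PointDatum.lean`), for which everything is proved in
`G1/H3108/{Trace,Graph,PointDatum,PointBC,CurvePoint}.lean` (no hypothesis on `R`).
Does NOT use the `BC` stub (the transport of `IsBC` along isomorphisms is proved here).
-/
import Fermat.Agent.S25.TWIST.Defs
import Fermat.Agent.S25.TWIST.G1.H3108.CurvePoint

set_option autoImplicit false

universe u

namespace Fermat.Agent.S25.TWIST.G1.H3108

open scoped TensorProduct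

open Fermat.Agent.S25 GluedModule

section Transport

variable {R R' : Type u} [CommRing R] [CommRing R'] {φ : R →+* R'} {𝔹 : TwoChart R}
  {𝔹' : TwoChart R'}

/-- Line bundles are invariant under isomorphism. -/
theorem isLineBundle_of_iso' {N M : GluedModule 𝔹} (h : N.IsLineBundle) (e : N.Iso M) :
    M.IsLineBundle := by
  have h₁ := h.inv₁
  have h₂ := h.inv₂
  exact ⟨Module.Invertible.congr e.e₁, Module.Invertible.congr e.e₂⟩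

/-- The relation `IsBC` (for an arbitrary morphism of two-charts) is invariant under
isomorphisms of source and target. -/
theorem isBC_of_iso_iso (Ψ : TwoChart.Hom φ 𝔹 𝔹') {N M : GluedModule 𝔹}
    {N' M' : GluedModule 𝔹'} (h : IsBC Ψ N N') (e : N.Iso M) (e' : N'.Iso M') :
    IsBC Ψ M M' := by
  obtain ⟨d⟩ := h
  have hs₁ : ∀ m : M.N₁, e.e₁₂.symm (M.ι₁ m) = N.ι₁ (e.e₁.symm m) := by
    intro m
    rw [LinearEquiv.symm_apply_eq, e.comm₁, LinearEquiv.apply_symm_apply]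
  have hs₂ : ∀ m : M.N₂, e.e₁₂.symm (M.ι₂ m) = N.ι₂ (e.e₂.symm m) := by
    intro m
    rw [LinearEquiv.symm_apply_eq, e.comm₂, LinearEquiv.apply_symm_apply]
  refine ⟨{
    j₁ := (e'.e₁ : N'.N₁ →+ M'.N₁).comp (d.j₁.comp (e.e₁.symm : M.N₁ →+ N.N₁))
    j₂ := (e'.e₂ : N'.N₂ →+ M'.N₂).comp (d.j₂.comp (e.e₂.symm : M.N₂ →+ N.N₂))
    j₁₂ := (e'.e₁₂ : N'.N₁₂ →+ M'.N₁₂).comp (d.j₁₂.comp (e.e₁₂.symm : M.N₁₂ →+ N.N₁₂))
    j₁_smul := ?_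
    j₂_smul := ?_
    j₁₂_smul := ?_
    comm₁ := ?_
    comm₂ := ?_
    univ₁ := ?_
    univ₂ := ?_ }⟩
  · intro b n
    change e'.e₁ (d.j₁ (e.e₁.symm (b • n))) = Ψ.ψ₁ b • e'.e₁ (d.j₁ (e.e₁.symm n))
    rw [map_smul, d.j₁_smul, map_smul]
  · intro b n
    change e'.e₂ (d.j₂ (e.e₂.symm (b • n))) = Ψ.ψ₂ b • e'.e₂ (d.j₂ (e.e₂.symm n))
    rw [map_smul, d.j₂_smul, map_smul]
  · intro b n
    change e'.e₁₂ (d.j₁₂ (e.e₁₂.symm (b • n))) = Ψ.ψ₁₂ b • e'.e₁₂ (d.j₁₂ (e.e₁₂.symm n))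
    rw [map_smul, d.j₁₂_smul, map_smul]
  · intro n
    change e'.e₁₂ (d.j₁₂ (e.e₁₂.symm (M.ι₁ n))) = M'.ι₁ (e'.e₁ (d.j₁ (e.e₁.symm n)))
    rw [hs₁, d.comm₁, e'.comm₁]
  · intro n
    change e'.e₁₂ (d.j₁₂ (e.e₁₂.symm (M.ι₂ n))) = M'.ι₂ (e'.e₂ (d.j₂ (e.e₂.symm n)))
    rw [hs₂, d.comm₂, e'.comm₂]
  · intro Q _ _ g hg
    obtain ⟨g'', hg'', huniq⟩ := d.univ₁ Q (g.comp (e.e₁ : N.N₁ →+ M.N₁)) (by
      intro b n
      change g (e.e₁ (b • n)) = Ψ.ψ₁ b • g (e.e₁ n)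
      rw [map_smul, hg])
    refine ⟨g'' ∘ₗ (e'.e₁.symm : M'.N₁ →ₗ[𝔹'.B₁] N'.N₁), ?_, ?_⟩
    · intro m
      change g'' (e'.e₁.symm (e'.e₁ (d.j₁ (e.e₁.symm m)))) = g m
      rw [LinearEquiv.symm_apply_apply, hg'']
      change g (e.e₁ (e.e₁.symm m)) = g m
      rw [LinearEquiv.apply_symm_apply]
    · intro g₂ hg₂
      have h2 : g₂ ∘ₗ (e'.e₁ : N'.N₁ →ₗ[𝔹'.B₁] M'.N₁) = g'' := by
        apply huniq
        intro n
        have := hg₂ (e.e₁ n)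
        change g₂ (e'.e₁ (d.j₁ (e.e₁.symm (e.e₁ n)))) = g (e.e₁ n) at this
        rw [LinearEquiv.symm_apply_apply] at this
        exact this
      rw [← h2]
      apply LinearMap.ext
      intro m
      change g₂ m = g₂ (e'.e₁ (e'.e₁.symm m))
      rw [LinearEquiv.apply_symm_apply]
  · intro Q _ _ g hg
    obtain ⟨g'', hg'', huniq⟩ := d.univ₂ Q (g.comp (e.e₂ : N.N₂ →+ M.N₂)) (by
      intro b n
      change g (e.e₂ (b • n)) = Ψ.ψ₂ b • g (e.e₂ n)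
      rw [map_smul, hg])
    refine ⟨g'' ∘ₗ (e'.e₂.symm : M'.N₂ →ₗ[𝔹'.B₂] N'.N₂), ?_, ?_⟩
    · intro m
      change g'' (e'.e₂.symm (e'.e₂ (d.j₂ (e.e₂.symm m)))) = g m
      rw [LinearEquiv.symm_apply_apply, hg'']
      change g (e.e₂ (e.e₂.symm m)) = g m
      rw [LinearEquiv.apply_symm_apply]
    · intro g₂ hg₂
      have h2 : g₂ ∘ₗ (e'.e₂ : N'.N₂ →ₗ[𝔹'.B₂] M'.N₂) = g'' := by
        apply huniq
        intro n
        have := hg₂ (e.e₂ n)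
        change g₂ (e'.e₂ (d.j₂ (e.e₂.symm (e.e₂ n)))) = g (e.e₂ n) at this
        rw [LinearEquiv.symm_apply_apply] at this
        exact this
      rw [← h2]
      apply LinearMap.ext
      intro m
      change g₂ m = g₂ (e'.e₂ (e'.e₂.symm m))
      rw [LinearEquiv.apply_symm_apply]

/-- The captain's glued module `TWIST.ofIdeals` of a pair of ideals is isomorphic to the glued
module of the corresponding ideal datum. -/
noncomputable def ofIdealsIso (a₁ : Ideal 𝔹.B₁) (a₂ : Ideal 𝔹.B₂)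
    (h : a₁.map 𝔹.r₁.toRingHom = a₂.map 𝔹.r₂.toRingHom) (D : IdealDatum 𝔹)
    (h₁ : a₁ = D.I₁) (h₂ : a₂ = D.I₂) : Iso (TWIST.ofIdeals 𝔹 a₁ a₂ h) D.toGlued := by
  subst h₁ h₂
  exact
    { e₁ := LinearEquiv.refl 𝔹.B₁ D.I₁
      e₂ := LinearEquiv.refl 𝔹.B₂ D.I₂
      e₁₂ := LinearEquiv.ofEq (D.I₁.map 𝔹.r₁.toRingHom) D.I₁₂ D.map₁
      comm₁ := fun _ => Subtype.ext rfl
      comm₂ := fun _ => Subtype.ext rfl }

end Transport

section Leaves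

variable {k : Type u} [Field k] (𝒞 : CurveData k) {R : Type u} [CommRing R] [Algebra k R]

/-- The captain's `Γ₁` is isomorphic to the glued module of my point datum. -/
noncomputable def Γ₁Iso (x : 𝒞.A₁ →ₐ[k] R) : Iso (TWIST.Γ₁ 𝒞 x) (ptGM₁ 𝒞 x) :=
  ofIdealsIso _ _ (TWIST.map_comap_map₂ _ _) (ptDatum₁ (𝒞.chart R) (liftPt₁ 𝒞 x)) rfl rfl

/-- The captain's `Γ₂` is isomorphic to the glued module of my point datum. -/
noncomputable def Γ₂Iso (x : 𝒞.A₂ →ₐ[k] R) : Iso (TWIST.Γ₂ 𝒞 x) (ptGM₂ 𝒞 x) :=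
  ofIdealsIso _ _ (TWIST.map_comap_map₁ _ _) (ptDatum₂ (𝒞.chart R) (liftPt₂ 𝒞 x)) rfl rfl

/-- (G1c) The two descriptions of a point of the overlap give the same ideal sheaf. -/
theorem Γ_overlap (x : 𝒞.A₁₂ →ₐ[k] R) :
    Nonempty (Iso (Γ₁ 𝒞 (x.comp 𝒞.r₁)) (Γ₂ 𝒞 (x.comp 𝒞.r₂))) := by
  have e₁ := Γ₁Iso 𝒞 (x.comp 𝒞.r₁)
  have e₂ := Γ₂Iso 𝒞 (x.comp 𝒞.r₂)
  rw [ptGM_overlap] at e₁
  exact ⟨e₁.trans e₂.symm⟩

variable [IsAlgClosed k]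

/-- (G1a) The graph ideal sheaf of a point of the first chart is a line bundle. -/
theorem Γ₁_isLineBundle (x : 𝒞.A₁ →ₐ[k] R) : (Γ₁ 𝒞 x).IsLineBundle :=
  isLineBundle_of_iso' (ptGM₁_isLineBundle 𝒞 x) (Γ₁Iso 𝒞 x).symm

/-- (G1a') The graph ideal sheaf of a point of the second chart is a line bundle. -/
theorem Γ₂_isLineBundle (x : 𝒞.A₂ →ₐ[k] R) : (Γ₂ 𝒞 x).IsLineBundle :=
  isLineBundle_of_iso' (ptGM₂_isLineBundle 𝒞 x) (Γ₂Iso 𝒞 x).symm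

/-- (G1b) Base change of the graph ideal sheaf (first chart). -/
theorem isBC_Γ₁ {R' : Type u} [CommRing R'] [Algebra k R'] (φ : R →ₐ[k] R')
    (x : 𝒞.A₁ →ₐ[k] R) : IsBC (𝒞.chartHom φ) (Γ₁ 𝒞 x) (Γ₁ 𝒞 (φ.comp x)) :=
  isBC_of_iso_iso _ (isBC_ptGM₁ 𝒞 φ x) (Γ₁Iso 𝒞 x).symm (Γ₁Iso 𝒞 (φ.comp x)).symm

/-- (G1b') Base change of the graph ideal sheaf (second chart). -/
theorem isBC_Γ₂ {R' : Type u} [CommRing R'] [Algebra k R'] (φ : R →ₐ[k] R')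
    (x : 𝒞.A₂ →ₐ[k] R) : IsBC (𝒞.chartHom φ) (Γ₂ 𝒞 x) (Γ₂ 𝒞 (φ.comp x)) :=
  isBC_of_iso_iso _ (isBC_ptGM₂ 𝒞 φ x) (Γ₂Iso 𝒞 x).symm (Γ₂Iso 𝒞 (φ.comp x)).symm

end Leaves

end Fermat.Agent.S25.TWIST.G1.H3108
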