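/-
S25 package TWIST, leaf G1c (helper9130): the two descriptions of a point of the overlap give
the same ideal sheaf.  No sorry.
-/
import Fermat.Agent.S25.TWIST.Defs

set_option autoImplicit false
set_option linter.style.haveILetI false

universe u

namespace Fermat.Agent.S25.TWIST.G1.H9130

open scoped TensorProduct

open GluedModule

section TwoChart

variable {R : Type u} [CommRing R] (𝔹 : TwoChart R)

/-- Every ideal of `B₁₂ = B₁[1/f]` is extended from its contraction to `B₁`. -/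
theorem map_comap_r₁ (J : Ideal 𝔹.B₁₂) :
    (J.comap 𝔹.r₁.toRingHom).map 𝔹.r₁.toRingHom = J := by
  letI := 𝔹.algebra₁
  haveI := 𝔹.isLocalization₁
  exact IsLocalization.map_under (Submonoid.powers 𝔹.f) 𝔹.B₁₂ J

/-- Every ideal of `B₁₂ = B₂[1/g]` is extended from its contraction to `B₂`. -/
theorem map_comap_r₂ (J : Ideal 𝔹.B₁₂) :
    (J.comap 𝔹.r₂.toRingHom).map 𝔹.r₂.toRingHom = J := by
  letI := 𝔹.algebra₂
  haveI := 𝔹.isLocalization₂
  exact IsLocalization.map_under (Submonoid.powers 𝔹.g) 𝔹.B₁₂ J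

/-- The ideal sheaves generated by the two contractions of an ideal of the overlap agree. -/
theorem ofIdeal_overlap (J : Ideal 𝔹.B₁₂) (I₁ : Ideal 𝔹.B₁) (I₂ : Ideal 𝔹.B₂)
    (h₁ : I₁ = J.comap 𝔹.r₁.toRingHom) (h₂ : I₂ = J.comap 𝔹.r₂.toRingHom) :
    Nonempty (Iso (ofIdeal₁ 𝔹 I₁) (ofIdeal₂ 𝔹 I₂)) := by
  subst h₁ h₂
  have e1 : J.comap 𝔹.r₁.toRingHom =
      (((J.comap 𝔹.r₂.toRingHom).map 𝔹.r₂.toRingHom).comap 𝔹.r₁.toRingHom) := by
    rw [map_comap_r₂]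
  have e2 : (((J.comap 𝔹.r₁.toRingHom).map 𝔹.r₁.toRingHom).comap 𝔹.r₂.toRingHom) =
      J.comap 𝔹.r₂.toRingHom := by
    rw [map_comap_r₁]
  have e12 : (J.comap 𝔹.r₁.toRingHom).map 𝔹.r₁.toRingHom =
      ((((J.comap 𝔹.r₂.toRingHom).map 𝔹.r₂.toRingHom).comap 𝔹.r₁.toRingHom)).map
        𝔹.r₁.toRingHom := by
    rw [map_comap_r₂]
  exact ⟨{ e₁ := LinearEquiv.ofEq _ _ e1
           e₂ := LinearEquiv.ofEq _ _ e2
           e₁₂ := LinearEquiv.ofEq _ _ e12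
           comm₁ := fun n => Subtype.ext rfl
           comm₂ := fun n => Subtype.ext rfl }⟩

end TwoChart

variable {k : Type u} [Field k] (𝒞 : CurveData k) {R : Type u} [CommRing R] [Algebra k R]

/-- Evaluation at an `R`-point of the overlap. -/
noncomputable def pointEval₁₂ (x : 𝒞.A₁₂ →ₐ[k] R) : (𝒞.chart R).B₁₂ →ₐ[R] R :=
  Algebra.TensorProduct.lift (AlgHom.id R R) x (fun _ _ => Commute.all _ _)

theorem pointEval₁₂_comp_r₁ (x : 𝒞.A₁₂ →ₐ[k] R) :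
    (pointEval₁₂ 𝒞 x).toRingHom.comp (𝒞.chart R).r₁.toRingHom =
      (pointEval₁ 𝒞 (x.comp 𝒞.r₁)).toRingHom := by
  have h : (pointEval₁₂ 𝒞 x).comp (𝒞.chart R).r₁ = pointEval₁ 𝒞 (x.comp 𝒞.r₁) := by
    apply Algebra.TensorProduct.ext'
    intro a b
    change Algebra.TensorProduct.lift (AlgHom.id R R) x (fun _ _ => Commute.all _ _)
        (Algebra.TensorProduct.map (AlgHom.id R R) 𝒞.r₁ (a ⊗ₜ[k] b)) =
      Algebra.TensorProduct.lift (AlgHom.id R R) (x.comp 𝒞.r₁) (fun _ _ => Commute.all _ _)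
        (a ⊗ₜ[k] b)
    simp
  exact congrArg AlgHom.toRingHom h

theorem pointEval₁₂_comp_r₂ (x : 𝒞.A₁₂ →ₐ[k] R) :
    (pointEval₁₂ 𝒞 x).toRingHom.comp (𝒞.chart R).r₂.toRingHom =
      (pointEval₂ 𝒞 (x.comp 𝒞.r₂)).toRingHom := by
  have h : (pointEval₁₂ 𝒞 x).comp (𝒞.chart R).r₂ = pointEval₂ 𝒞 (x.comp 𝒞.r₂) := by
    apply Algebra.TensorProduct.ext'
    intro a b
    change Algebra.TensorProduct.lift (AlgHom.id R R) x (fun _ _ => Commute.all _ _)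
        (Algebra.TensorProduct.map (AlgHom.id R R) 𝒞.r₂ (a ⊗ₜ[k] b)) =
      Algebra.TensorProduct.lift (AlgHom.id R R) (x.comp 𝒞.r₂) (fun _ _ => Commute.all _ _)
        (a ⊗ₜ[k] b)
    simp
  exact congrArg AlgHom.toRingHom h

/-- (G1c) The two descriptions of a point of the overlap give the same ideal sheaf. -/
theorem Γ_overlap (x : 𝒞.A₁₂ →ₐ[k] R) :
    Nonempty (Iso (Γ₁ 𝒞 (x.comp 𝒞.r₁)) (Γ₂ 𝒞 (x.comp 𝒞.r₂))) := by
  refine ofIdeal_overlap (𝒞.chart R) (RingHom.ker (pointEval₁₂ 𝒞 x).toRingHom) _ _ ?_ ?_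
  · rw [RingHom.comap_ker, pointEval₁₂_comp_r₁]
  · rw [RingHom.comap_ker, pointEval₁₂_comp_r₂]

end Fermat.Agent.S25.TWIST.G1.H9130
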